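import Fermat.Agent.S49.LinAlg2
import Fermat.Agent.S49.LinAlg3

set_option autoImplicit false

/-!
# S41: the Deligne–Serre lifting lemma in lattice form

Let `L` be a finitely generated `ℤ`-submodule of a complex vector space `V`, stable under a
commuting family of operators `T i`, and let `x ∈ L ∖ pL` be an eigenvector modulo `p`, with
integer eigenvalues `a i` (i.e. `T i x - a i • x ∈ pL`).  Then there is a genuine common
eigenvector `v` in the `ℂ`-span of `L`, with eigenvalues algebraic integers `ψ i`, and a maximal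
ideal `𝔪'` of the ring of all algebraic integers containing `p` and all `ψ i - a i`.
-/

namespace Fermat.Agent.S41.DS49

open Module Fermat.Agent.S49

open scoped IsMulCommutative

section Core

variable {V : Type*} [AddCommGroup V] [Module ℂ V]

/-- `x` is `p` times an element of the lattice `L`. -/
def DivP (L : Submodule ℤ V) (p : ℕ) (x : V) : Prop := ∃ y ∈ L, x = (p : ℤ) • y

omit [Module ℂ V] in
theorem divP_zero (L : Submodule ℤ V) (p : ℕ) : DivP L p (0 : V) :=
  ⟨0, L.zero_mem, by simp⟩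

omit [Module ℂ V] in
theorem divP_add {L : Submodule ℤ V} {p : ℕ} {x y : V} (hx : DivP L p x) (hy : DivP L p y) :
    DivP L p (x + y) := by
  obtain ⟨x', hx', rfl⟩ := hx
  obtain ⟨y', hy', rfl⟩ := hy
  exact ⟨x' + y', L.add_mem hx' hy', by rw [smul_add]⟩

omit [Module ℂ V] in
theorem divP_neg {L : Submodule ℤ V} {p : ℕ} {x : V} (hx : DivP L p x) : DivP L p (-x) := by
  obtain ⟨x', hx', rfl⟩ := hx
  exact ⟨-x', L.neg_mem hx', by rw [smul_neg]⟩

theorem divP_sub {L : Submodule ℤ V} {p : ℕ} {x y : V} (hx : DivP L p x) (hy : DivP L p y) :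
    DivP L p (x - y) := by
  rw [sub_eq_add_neg]
  exact divP_add hx (divP_neg hy)

omit [Module ℂ V] in
theorem divP_zsmul {L : Submodule ℤ V} {p : ℕ} {x : V} (z : ℤ) (hx : DivP L p x) :
    DivP L p (z • x) := by
  obtain ⟨x', hx', rfl⟩ := hx
  exact ⟨z • x', L.smul_mem z hx', by rw [smul_comm]⟩

omit [Module ℂ V] in
theorem divP_p_smul {L : Submodule ℤ V} {p : ℕ} {x : V} (hx : x ∈ L) :
    DivP L p ((p : ℤ) • x) := ⟨x, hx, rfl⟩

theorem divP_map {L : Submodule ℤ V} {p : ℕ} {x : V} (t : Module.End ℂ V)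
    (ht : ∀ y ∈ L, t y ∈ L) (hx : DivP L p x) : DivP L p (t x) := by
  obtain ⟨x', hx', rfl⟩ := hx
  exact ⟨t x', ht x' hx', by rw [map_zsmul]⟩

variable (A : Subalgebra ℤ (Module.End ℂ V)) [IsMulCommutative A]

omit [IsMulCommutative A] in
theorem coe_algebraMap_apply' (z : ℤ) (g : V) :
    ((algebraMap ℤ A z : A) : Module.End ℂ V) g = z • g := by
  have : ((algebraMap ℤ A z : A) : Module.End ℂ V) =
      algebraMap ℤ (Module.End ℂ V) z := rfl
  rw [this, Module.algebraMap_end_apply]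

/-- The ideal of operators killing `x` modulo `pL`. -/
def idealP (L : Submodule ℤ V) (hA : ∀ t ∈ A, ∀ y ∈ L, (t : Module.End ℂ V) y ∈ L) (p : ℕ)
    (x : V) : Ideal A where
  carrier := {t | DivP L p ((t : Module.End ℂ V) x)}
  add_mem' {s t} hs ht := by
    show DivP L p (((s + t : A) : Module.End ℂ V) x)
    have : ((s + t : A) : Module.End ℂ V) x =
        (s : Module.End ℂ V) x + (t : Module.End ℂ V) x := rfl
    rw [this]
    exact divP_add hs ht
  zero_mem' := by
    show DivP L p (((0 : A) : Module.End ℂ V) x)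
    have : ((0 : A) : Module.End ℂ V) x = 0 := rfl
    rw [this]
    exact divP_zero L p
  smul_mem' s {t} ht := by
    show DivP L p (((s * t : A) : Module.End ℂ V) x)
    have : ((s * t : A) : Module.End ℂ V) x =
        (s : Module.End ℂ V) ((t : Module.End ℂ V) x) := rfl
    rw [this]
    exact divP_map _ (hA s s.2) ht

theorem mem_idealP (L : Submodule ℤ V) (hA : ∀ t ∈ A, ∀ y ∈ L, (t : Module.End ℂ V) y ∈ L)
    (p : ℕ) (x : V) (t : A) :
    t ∈ idealP A L hA p x ↔ DivP L p ((t : Module.End ℂ V) x) := Iff.rfl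

variable {A}
variable {L : Submodule ℤ V} (hA : ∀ t ∈ A, ∀ y ∈ L, (t : Module.End ℂ V) y ∈ L) {p : ℕ}
  {x : V}

theorem algebraMap_p_mem_idealP (hx : x ∈ L) : algebraMap ℤ A (p : ℤ) ∈ idealP A L hA p x := by
  rw [mem_idealP, coe_algebraMap_apply']
  exact divP_p_smul hx

theorem one_notMem_idealP (hxp : ¬ DivP L p x) : (1 : A) ∉ idealP A L hA p x := by
  intro h
  rw [mem_idealP] at h
  exact hxp h

/-- If the generators act on `x` by integers modulo `pL`, so does every element. -/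
theorem exists_int_sub_mem_idealP {G : Set (Module.End ℂ V)} (hG : A = Algebra.adjoin ℤ G)
    (hGx : ∀ g ∈ G, ∃ z : ℤ, DivP L p (g x - z • x)) (t : A) :
    ∃ z : ℤ, t - algebraMap ℤ A z ∈ idealP A L hA p x := by
  subst hG
  obtain ⟨t, ht⟩ := t
  induction ht using Algebra.adjoin_induction with
  | mem g hg =>
    obtain ⟨z, hz⟩ := hGx g hg
    refine ⟨z, ?_⟩
    rw [mem_idealP]
    have : (((⟨g, Algebra.subset_adjoin hg⟩ : Algebra.adjoin ℤ G) - algebraMap ℤ _ z :
        Algebra.adjoin ℤ G) : Module.End ℂ V) x = g x - z • x := by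
      rw [← coe_algebraMap_apply' (Algebra.adjoin ℤ G)]
      rfl
    rw [this]
    exact hz
  | algebraMap r =>
    refine ⟨r, ?_⟩
    have : (⟨algebraMap ℤ (Module.End ℂ V) r, Subalgebra.algebraMap_mem _ r⟩ :
        Algebra.adjoin ℤ G) = algebraMap ℤ (Algebra.adjoin ℤ G) r := rfl
    rw [this, sub_self]
    exact (idealP _ L hA p x).zero_mem
  | add s t hs ht ihs iht =>
    obtain ⟨zs, hzs⟩ := ihs
    obtain ⟨zt, hzt⟩ := iht
    refine ⟨zs + zt, ?_⟩
    have : (⟨s + t, add_mem hs ht⟩ : Algebra.adjoin ℤ G) - algebraMap ℤ _ (zs + zt) =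
        ((⟨s, hs⟩ : Algebra.adjoin ℤ G) - algebraMap ℤ _ zs) +
          ((⟨t, ht⟩ : Algebra.adjoin ℤ G) - algebraMap ℤ _ zt) := by
      rw [map_add]
      have : (⟨s + t, add_mem hs ht⟩ : Algebra.adjoin ℤ G) = (⟨s, hs⟩ : Algebra.adjoin ℤ G) +
          ⟨t, ht⟩ := rfl
      rw [this]
      ring
    rw [this]
    exact (idealP _ L hA p x).add_mem hzs hzt
  | mul s t hs ht ihs iht =>
    obtain ⟨zs, hzs⟩ := ihs
    obtain ⟨zt, hzt⟩ := iht
    refine ⟨zs * zt, ?_⟩
    have : (⟨s * t, mul_mem hs ht⟩ : Algebra.adjoin ℤ G) - algebraMap ℤ _ (zs * zt) =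
        (⟨s, hs⟩ : Algebra.adjoin ℤ G) * ((⟨t, ht⟩ : Algebra.adjoin ℤ G) - algebraMap ℤ _ zt) +
          ((⟨s, hs⟩ : Algebra.adjoin ℤ G) - algebraMap ℤ _ zs) * algebraMap ℤ _ zt := by
      rw [map_mul]
      have : (⟨s * t, mul_mem hs ht⟩ : Algebra.adjoin ℤ G) = (⟨s, hs⟩ : Algebra.adjoin ℤ G) *
          ⟨t, ht⟩ := rfl
      rw [this]
      ring
    rw [this]
    exact (idealP _ L hA p x).add_mem ((idealP _ L hA p x).mul_mem_left _ hzt)
      ((idealP _ L hA p x).mul_mem_right _ hzs)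

theorem idealP_isMaximal (hp : p.Prime) {G : Set (Module.End ℂ V)}
    (hG : A = Algebra.adjoin ℤ G) (hGx : ∀ g ∈ G, ∃ z : ℤ, DivP L p (g x - z • x))
    (hx : x ∈ L) (hxp : ¬ DivP L p x) : (idealP A L hA p x).IsMaximal := by
  rw [Ideal.isMaximal_iff]
  refine ⟨one_notMem_idealP hA hxp, ?_⟩
  intro J t hIJ htI htJ
  obtain ⟨z, hz⟩ := exists_int_sub_mem_idealP hA hG hGx t
  have hzJ : algebraMap ℤ A z ∈ J := by
    have : algebraMap ℤ A z = t - (t - algebraMap ℤ A z) := by ring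
    rw [this]
    exact J.sub_mem htJ (hIJ hz)
  have hpJ : algebraMap ℤ A (p : ℤ) ∈ J := hIJ (algebraMap_p_mem_idealP hA hx)
  have hndvd : ¬ (p : ℤ) ∣ z := by
    rintro ⟨m, rfl⟩
    apply htI
    have h1 : algebraMap ℤ A ((p : ℤ) * m) ∈ idealP A L hA p x := by
      rw [map_mul]
      exact (idealP A L hA p x).mul_mem_right _ (algebraMap_p_mem_idealP hA hx)
    have := (idealP A L hA p x).add_mem hz h1
    simpa using this
  have hcop : IsCoprime z (p : ℤ) :=
    ((Irreducible.coprime_iff_not_dvd (Nat.prime_iff_prime_int.mp hp).irreducible).mpr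
      hndvd).symm
  obtain ⟨u, w, huw⟩ := hcop
  have : (1 : A) = algebraMap ℤ A u * algebraMap ℤ A z + algebraMap ℤ A w * algebraMap ℤ A p := by
    rw [← map_mul, ← map_mul, ← map_add, huw, map_one]
  rw [this]
  exact J.add_mem (J.mul_mem_left _ hzJ) (J.mul_mem_left _ hpJ)

/-- **Deligne–Serre, core form**: `V` finite-dimensional and `L` spanning. -/
theorem deligne_serre_core [FiniteDimensional ℂ V] {ι : Type*} (L : Submodule ℤ V)
    (hLfg : L.FG) (hspan : Submodule.span ℂ (L : Set V) = ⊤)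
    (T : ι → Module.End ℂ V) (hcomm : ∀ i j, Commute (T i) (T j))
    (hstab : ∀ i, ∀ y ∈ L, T i y ∈ L)
    {p : ℕ} (hp : p.Prime) (a : ι → ℤ) (x : V) (hx : x ∈ L) (hxp : ¬ DivP L p x)
    (hcong : ∀ i, DivP L p (T i x - a i • x)) :
    ∃ (v : V) (ψ : ι → integralClosure ℤ ℂ) (𝔪' : Ideal (integralClosure ℤ ℂ)),
      v ≠ 0 ∧ (∀ i, T i v = ((ψ i : integralClosure ℤ ℂ) : ℂ) • v) ∧
      𝔪'.IsMaximal ∧ (p : integralClosure ℤ ℂ) ∈ 𝔪' ∧
      ∀ i, ψ i - ((a i : ℤ) : integralClosure ℤ ℂ) ∈ 𝔪' := by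
  classical
  let G : Set (Module.End ℂ V) := Set.range T
  let A : Subalgebra ℤ (Module.End ℂ V) := Algebra.adjoin ℤ G
  haveI : IsMulCommutative A := Algebra.isMulCommutative_adjoin ℤ (by
    rintro _ ⟨i, rfl⟩ _ ⟨j, rfl⟩
    exact hcomm i j)
  have hA : ∀ t ∈ A, ∀ y ∈ L, (t : Module.End ℂ V) y ∈ L := by
    intro t ht
    induction ht using Algebra.adjoin_induction with
    | mem g hg =>
      obtain ⟨i, rfl⟩ := hg
      exact hstab i
    | algebraMap r =>
      intro y hy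
      rw [Module.algebraMap_end_apply]
      exact L.smul_mem r hy
    | add s t _ _ ihs iht =>
      intro y hy
      exact L.add_mem (ihs y hy) (iht y hy)
    | mul s t _ _ ihs iht =>
      intro y hy
      exact ihs _ (iht y hy)
  have hint : ∀ t : A, IsIntegral ℤ t := by
    intro t
    have h1 : IsIntegral ℤ (t : Module.End ℂ V) :=
      isIntegral_of_mapsTo_lattice L hLfg hspan _ (hA t t.2)
    exact (isIntegral_algHom_iff A.val Subtype.val_injective).mp h1
  have hGx : ∀ g ∈ G, ∃ z : ℤ, DivP L p (g x - z • x) := by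
    rintro _ ⟨i, rfl⟩
    exact ⟨a i, hcong i⟩
  haveI hmax : (idealP A L hA p x).IsMaximal := idealP_isMaximal hA hp rfl hGx hx hxp
  obtain ⟨v, φ, 𝔪, hv0, hv, h𝔪max, h𝔪⟩ :=
    abstract_lifting (K := ℂ) (V := V) (A := A)
      ((A.val : A →ₐ[ℤ] Module.End ℂ V) : A →+* Module.End ℂ V) Subtype.val_injective
      (idealP A L hA p x) hint
  let TA : ι → A := fun i => ⟨T i, Algebra.subset_adjoin ⟨i, rfl⟩⟩
  refine ⟨v, fun i => φ (TA i), 𝔪, hv0, fun i => hv (TA i), h𝔪max, ?_, ?_⟩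
  · have h3 : algebraMap ℤ A (p : ℤ) ∈ idealP A L hA p x := algebraMap_p_mem_idealP hA hx
    rw [← h𝔪, Ideal.mem_comap, eq_intCast, map_intCast] at h3
    simpa using h3
  · intro i
    have h1 : TA i - algebraMap ℤ A (a i) ∈ idealP A L hA p x := by
      rw [mem_idealP]
      have : ((TA i - algebraMap ℤ A (a i) : A) : Module.End ℂ V) x = T i x - a i • x := by
        rw [← coe_algebraMap_apply' A]
        rfl
      rw [this]
      exact hcong i
    rw [← h𝔪, Ideal.mem_comap, map_sub] at h1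
    simpa using h1

end Core

section General

variable {ι V : Type*} [AddCommGroup V] [Module ℂ V]

/-- **Deligne–Serre lifting lemma, lattice form**, with commutativity of the operators assumed
only on the `ℂ`-span of the lattice. -/
theorem deligne_serre_lattice_of_commute_on_span (L : Submodule ℤ V) (hL : L.FG)
    (T : ι → Module.End ℂ V)
    (hcomm : ∀ i j, ∀ w ∈ Submodule.span ℂ (L : Set V), T i (T j w) = T j (T i w))
    (hstab : ∀ i, ∀ x ∈ L, T i x ∈ L)
    {p : ℕ} (hp : p.Prime) (a : ι → ℤ) (x : V) (hx : x ∈ L)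
    (hxp : ¬ ∃ y ∈ L, x = (p : ℤ) • y)
    (hcong : ∀ i, ∃ y ∈ L, T i x - (a i) • x = (p : ℤ) • y) :
    ∃ (v : V) (ψ : ι → integralClosure ℤ ℂ) (𝔪' : Ideal (integralClosure ℤ ℂ)),
      v ∈ Submodule.span ℂ (L : Set V) ∧ v ≠ 0 ∧
      (∀ i, T i v = ((ψ i : integralClosure ℤ ℂ) : ℂ) • v) ∧
      𝔪'.IsMaximal ∧ (p : integralClosure ℤ ℂ) ∈ 𝔪' ∧
      ∀ i, ψ i - ((a i : ℤ) : integralClosure ℤ ℂ) ∈ 𝔪' := by
  classical
  let W : Submodule ℂ V := Submodule.span ℂ (L : Set V)
  -- finite-dimensionality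
  obtain ⟨S, hS⟩ := hL
  have hWS : W = Submodule.span ℂ (S : Set V) := by
    show Submodule.span ℂ (L : Set V) = _
    rw [← hS]
    exact Submodule.span_span_of_tower ℤ ℂ (S : Set V)
  haveI : FiniteDimensional ℂ W := by
    rw [hWS]
    exact FiniteDimensional.span_of_finite ℂ S.finite_toSet
  have hLfg : L.FG := ⟨S, hS⟩
  -- stability
  have hW : ∀ i, ∀ w ∈ W, T i w ∈ W := by
    intro i
    have : W ≤ W.comap (T i) :=
      Submodule.span_le.mpr (fun y hy => Submodule.subset_span (hstab i y hy))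
    exact this
  let T' : ι → Module.End ℂ W := fun i => (T i).restrict (hW i)
  have hT' : ∀ i (w : W), ((T' i w : W) : V) = T i (w : V) := fun i w => rfl
  have hcomm' : ∀ i j, Commute (T' i) (T' j) := by
    intro i j
    apply LinearMap.ext
    intro w
    apply Subtype.ext
    show T i (T j (w : V)) = T j (T i (w : V))
    exact hcomm i j (w : V) w.2
  -- the lattice inside `W`
  let L' : Submodule ℤ W := L.comap ((W.subtype).restrictScalars ℤ)
  have hL'fg : L'.FG := by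
    let j : L →ₗ[ℤ] W :=
      { toFun := fun y => ⟨(y : V), Submodule.subset_span y.2⟩
        map_add' := fun _ _ => rfl
        map_smul' := fun _ _ => rfl }
    have hrange : L' = Submodule.map j ⊤ := by
      ext w
      constructor
      · intro hw
        exact ⟨⟨(w : V), hw⟩, Submodule.mem_top, Subtype.ext rfl⟩
      · rintro ⟨y, -, rfl⟩
        exact y.2
    rw [hrange]
    exact ((Submodule.fg_top L).mpr hLfg).map j
  have hspan' : Submodule.span ℂ (L' : Set W) = ⊤ := by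
    apply Submodule.map_injective_of_injective (f := W.subtype) W.injective_subtype
    rw [Submodule.map_span, Submodule.map_top, Submodule.range_subtype]
    have : (W.subtype '' (L' : Set W)) = (L : Set V) := by
      ext y
      constructor
      · rintro ⟨w, hw, rfl⟩
        exact hw
      · intro hy
        exact ⟨⟨y, Submodule.subset_span hy⟩, hy, rfl⟩
    rw [this]
  have hstab' : ∀ i, ∀ y ∈ L', T' i y ∈ L' := fun i y hy => hstab i (y : V) hy
  let x' : W := ⟨x, Submodule.subset_span hx⟩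
  have hx' : x' ∈ L' := hx
  have hxp' : ¬ DivP L' p x' := by
    rintro ⟨y, hy, hxy⟩
    exact hxp ⟨(y : V), hy, congrArg Subtype.val hxy⟩
  have hcong' : ∀ i, DivP L' p (T' i x' - a i • x') := by
    intro i
    obtain ⟨y, hy, hxy⟩ := hcong i
    exact ⟨⟨y, Submodule.subset_span hy⟩, hy, Subtype.ext hxy⟩
  obtain ⟨v, ψ, 𝔪', hv0, hv, hmax, hpm, hψ⟩ :=
    deligne_serre_core L' hL'fg hspan' T' hcomm' hstab' hp a x' hx' hxp' hcong'
  refine ⟨(v : V), ψ, 𝔪', v.2, fun h => hv0 (Subtype.ext h), fun i => ?_, hmax, hpm, hψ⟩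
  rw [← hT', hv i]
  rfl

/-- **Deligne–Serre lifting lemma, lattice form.** -/
theorem deligne_serre_lattice (L : Submodule ℤ V) (hL : L.FG)
    (T : ι → Module.End ℂ V) (hcomm : ∀ i j, Commute (T i) (T j))
    (hstab : ∀ i, ∀ x ∈ L, T i x ∈ L)
    {p : ℕ} (hp : p.Prime) (a : ι → ℤ) (x : V) (hx : x ∈ L)
    (hxp : ¬ ∃ y ∈ L, x = (p : ℤ) • y)
    (hcong : ∀ i, ∃ y ∈ L, T i x - (a i) • x = (p : ℤ) • y) :
    ∃ (v : V) (ψ : ι → integralClosure ℤ ℂ) (𝔪' : Ideal (integralClosure ℤ ℂ)),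
      v ∈ Submodule.span ℂ (L : Set V) ∧ v ≠ 0 ∧
      (∀ i, T i v = ((ψ i : integralClosure ℤ ℂ) : ℂ) • v) ∧
      𝔪'.IsMaximal ∧ (p : integralClosure ℤ ℂ) ∈ 𝔪' ∧
      ∀ i, ψ i - ((a i : ℤ) : integralClosure ℤ ℂ) ∈ 𝔪' :=
  deligne_serre_lattice_of_commute_on_span L hL T
    (fun i j w _ => congrArg (fun f : Module.End ℂ V => f w) (hcomm i j).eq)
    hstab hp a x hx hxp hcong

end General

end Fermat.Agent.S41.DS49
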